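import Mathlib

/-!
# IN-JAC, task CONV: the interpolation identity (pure algebra)

For points `b i` and values `a i` (`i : Fin n`), let `G k l = ∑ i, b i ^ (k + l)` (power sums)
and `T k = ∑ i, a i * b i ^ k`.  Then
`det G * a i₀ = ∑ k, (adjugate G *ᵥ T) k * b i₀ ^ k`:
Cramer's rule for the interpolation problem, valid without any distinctness assumption.
-/

set_option autoImplicit false

open Matrix

namespace Fermat.Agent.Jac

/-- the Hankel matrix of power sums. -/
def h32_hankel {R : Type*} [CommRing R] {n : ℕ} (V : ℕ → R) : Matrix (Fin n) (Fin n) R :=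
  Matrix.of fun k l => V ((k : ℕ) + (l : ℕ))

theorem h32_hankel_apply {R : Type*} [CommRing R] {n : ℕ} (V : ℕ → R) (k l : Fin n) :
    h32_hankel V k l = V ((k : ℕ) + (l : ℕ)) := rfl

theorem h32_hankel_eq {n : ℕ} (b : Fin n → ℂ) :
    (h32_hankel (n := n) fun m => ∑ i, b i ^ m) = (vandermonde b)ᵀ * vandermonde b := by
  ext k l
  simp only [h32_hankel_apply, mul_apply, transpose_apply, vandermonde_apply, pow_add]

theorem h32_det_hankel {n : ℕ} (b : Fin n → ℂ) :
    (h32_hankel (n := n) fun m => ∑ i, b i ^ m).det = (vandermonde b).det ^ 2 := by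
  rw [h32_hankel_eq, det_mul, det_transpose, pow_two]

/-- Cramer's rule for interpolation. -/
theorem h32_interpolation {n : ℕ} (b a : Fin n → ℂ) (i₀ : Fin n) :
    (h32_hankel (n := n) fun m => ∑ i, b i ^ m).det * a i₀ =
      ∑ k : Fin n, ((h32_hankel (n := n) fun m => ∑ i, b i ^ m).adjugate.mulVec
        (fun k => ∑ i, a i * b i ^ (k : ℕ))) k * b i₀ ^ (k : ℕ) := by
  set W := vandermonde b with hW
  have hT : (fun k : Fin n => ∑ i, a i * b i ^ (k : ℕ)) = Wᵀ.mulVec a := by
    funext k
    simp only [mulVec, dotProduct, transpose_apply, hW, vandermonde_apply, mul_comm]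
  have hsum : ∀ v : Fin n → ℂ, ∑ k : Fin n, v k * b i₀ ^ (k : ℕ) = (W.mulVec v) i₀ := by
    intro v
    simp only [mulVec, dotProduct, hW, vandermonde_apply, mul_comm]
  rw [hsum, h32_hankel_eq, hT, adjugate_mul_distrib, ← hW]
  rw [mulVec_mulVec, mulVec_mulVec]
  have hM : W * (W.adjugate * Wᵀ.adjugate) * Wᵀ = (W.det * Wᵀ.det) • (1 : Matrix (Fin n) (Fin n) ℂ) := by
    rw [← Matrix.mul_assoc, mul_adjugate, Matrix.smul_mul, Matrix.one_mul, Matrix.smul_mul,
      adjugate_mul, smul_smul]
  rw [hM, det_mul, det_transpose]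
  simp only [smul_mulVec, one_mulVec, Pi.smul_apply, smul_eq_mul]

end Fermat.Agent.Jac
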