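import Fermat.Agent.Jac.Skeleton2
import Fermat.Agent.S28.PartOne
import Fermat.Agent.S24.Distinct
import Fermat.Agent.S24.Tay
import Fermat.Agent.S24.AnRep

/-!
# IN-JAC, task CONV: symmetric functions of translates are polynomials in `j`

For `Γ₀(N)`-invariant holomorphic functions `a`, `f` on `ℍ` which are meromorphic at all cusps,
the functions `∑_q a_q f_q ^ k` (sum over the cosets `q ∈ SL₂(ℤ)/Γ₀(N)`, `f_q` the translate of `f`)
are `SL₂(ℤ)`-invariant, holomorphic with a pole at `i∞`: polynomials in `j`.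
-/

set_option autoImplicit false
set_option linter.style.haveILetI false

open ModularCurve AlgebraicCurve UpperHalfPlane CongruenceSubgroup
open scoped MatrixGroups Manifold

noncomputable section

namespace Fermat.Agent.Jac

open Fermat.Agent.S28 (HasTExp Holo poleFil jAn jAt cosetTranslate IsPoleFiltration)

theorem h32_poleFil_mono {N : ℕ} {k k' : ℕ} (h : k ≤ k') :
    poleFil N ⊤ k ⊆ poleFil N ⊤ k' := by
  rintro g ⟨hg, s, hs, hS, hb⟩
  refine ⟨hg, s, hs, hS, fun n hn => hb n (lt_of_lt_of_le hn ?_)⟩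
  have h1 : (k : ℤ) ≤ k' := by exact_mod_cast h
  have h2 : (0 : ℤ) ≤ N := Int.natCast_nonneg N
  nlinarith

theorem h32_mem_poleFil_of_hasTExp {N : ℕ} (hN : 0 < N) {g : ℍ → ℂ} {s : LaurentSeries ℂ}
    (hg : Holo g) (h : HasTExp N g s) : ∃ M, g ∈ poleFil N ⊤ M := by
  obtain ⟨M, p, rfl, hsum⟩ := h
  refine ⟨M, hg, _, ⟨M, p, rfl, hsum⟩, fun _ => Subring.mem_top _, fun n hn => ?_⟩
  refine Fermat.Agent.S28.coeff_single_neg_mul_ofPowerSeries_of_lt M p (lt_of_lt_of_le hn ?_)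
  have h1 : (1 : ℤ) ≤ N := by exact_mod_cast hN
  have h2 : (0 : ℤ) ≤ M := Int.natCast_nonneg M
  nlinarith

section

variable (N : ℕ) [NeZero N]

/-- uniform pole bound for the translates of a function which is meromorphic at all cusps. -/
theorem h32_exists_bound (A : ℍ → ℂ) (hA : Holo A)
    (hinv : ∀ γ ∈ Gamma0 N, ∀ τ : ℍ, A (γ • τ) = A τ) (hc : CuspMero N A) :
    ∃ M, ∀ g : SL(2, ℤ), (fun τ => A (g • τ)) ∈ poleFil N ⊤ M := by
  classical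
  have hN : 0 < N := Nat.pos_of_ne_zero (NeZero.ne N)
  letI := Fintype.ofFinite (SL(2, ℤ) ⧸ Gamma0 N)
  have h1 : ∀ q : SL(2, ℤ) ⧸ Gamma0 N, ∃ M, cosetTranslate (Gamma0 N) A hinv q ∈ poleFil N ⊤ M := by
    intro q
    induction q using QuotientGroup.induction_on with
    | H g =>
      obtain ⟨s, hs⟩ := hc g⁻¹
      exact h32_mem_poleFil_of_hasTExp hN (Fermat.Agent.S28.h93_holo_comp_smul hA g⁻¹) hs
  choose Mq hMq using h1
  refine ⟨∑ q, Mq q, fun g => ?_⟩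
  have h2 := hMq ((g⁻¹ : SL(2, ℤ)) : SL(2, ℤ) ⧸ Gamma0 N)
  have h3 : cosetTranslate (Gamma0 N) A hinv ((g⁻¹ : SL(2, ℤ)) : SL(2, ℤ) ⧸ Gamma0 N) =
      fun τ => A (g • τ) := by
    funext τ
    simp
  rw [h3] at h2
  exact h32_poleFil_mono (Finset.single_le_sum (f := Mq) (fun _ _ => Nat.zero_le _)
    (Finset.mem_univ _)) h2

/-- an `SL₂(ℤ)`-invariant function in the pole filtration is a polynomial in `j`. -/
theorem h32_levelOne {M : ℕ} {g : ℍ → ℂ} (hg : g ∈ poleFil N ⊤ M)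
    (hinv : ∀ (γ : SL(2, ℤ)) (τ : ℍ), g (γ • τ) = g τ) :
    ∃ Q : Polynomial ℂ, ∀ τ, g τ = Q.eval (jAn τ) := by
  have hN : 0 < N := Nat.pos_of_ne_zero (NeZero.ne N)
  obtain ⟨hg, s, hs, hsS, hsM⟩ := hg
  have hper : ∀ τ : ℍ, g ((1 : ℝ) +ᵥ τ) = g τ := by
    intro τ
    rw [← UpperHalfPlane.modular_T_smul, hinv]
  obtain ⟨s₁, hs₁, rfl⟩ := Fermat.Agent.S28.HasTExp.to_one hs hper
  have hs₁M : ∀ n : ℤ, n < -(M : ℤ) → s₁.coeff n = 0 := by
    intro n hn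
    have := hsM ((N : ℤ) * n) (by
      have hN' : (0 : ℤ) < N := by exact_mod_cast hN
      nlinarith)
    rwa [qExpand_coeff_mul] at this
  obtain ⟨Q, -, hQ2⟩ := Fermat.Agent.S28.h44_levelOne_poly
    (Fermat.Agent.S28.h44_bridgeStatement N hN).1 ⊤ g hg hinv s₁ hs₁
    (fun _ => Subring.mem_top _) M hs₁M
  exact ⟨Q.map (⊤ : Subring ℂ).subtype, hQ2⟩

variable {N}
variable (a f : ℍ → ℂ) (ha : ∀ γ ∈ Gamma0 N, ∀ τ : ℍ, a (γ • τ) = a τ)
  (hf : ∀ γ ∈ Gamma0 N, ∀ τ : ℍ, f (γ • τ) = f τ)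

/-- the "trace" `∑_q a_q f_q ^ k`. -/
def h32_psum (k : ℕ) (τ : ℍ) : ℂ :=
  letI := Fintype.ofFinite (SL(2, ℤ) ⧸ Gamma0 N)
  ∑ q : SL(2, ℤ) ⧸ Gamma0 N,
    cosetTranslate (Gamma0 N) a ha q τ * cosetTranslate (Gamma0 N) f hf q τ ^ k

theorem h32_psum_smul (k : ℕ) (γ : SL(2, ℤ)) (τ : ℍ) :
    h32_psum a f ha hf k (γ • τ) = h32_psum a f ha hf k τ := by
  letI := Fintype.ofFinite (SL(2, ℤ) ⧸ Gamma0 N)
  simp only [h32_psum, Fermat.Agent.S28.cosetTranslate_smul]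
  exact Equiv.sum_comp (MulAction.toPerm (γ⁻¹ : SL(2, ℤ)))
    (fun q : SL(2, ℤ) ⧸ Gamma0 N =>
      cosetTranslate (Gamma0 N) a ha q τ * cosetTranslate (Gamma0 N) f hf q τ ^ k)

theorem h32_pow_mem {Fil : ℕ → Set (ℍ → ℂ)} (hFil : IsPoleFiltration Fil) {M : ℕ} {g : ℍ → ℂ}
    (hg : g ∈ Fil M) (k : ℕ) : g ^ k ∈ Fil (M * k) := by
  induction k with
  | zero => simpa using hFil.one_mem
  | succ k ih =>
    rw [pow_succ, Nat.mul_succ]
    exact hFil.mul_mem ih hg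

theorem h32_psum_mem {Ma Mf : ℕ}
    (haP : ∀ g : SL(2, ℤ), (fun τ => a (g • τ)) ∈ poleFil N ⊤ Ma)
    (hfP : ∀ g : SL(2, ℤ), (fun τ => f (g • τ)) ∈ poleFil N ⊤ Mf) (k : ℕ) :
    h32_psum a f ha hf k ∈ poleFil N ⊤ (Ma + Mf * k) := by
  have hN : 0 < N := Nat.pos_of_ne_zero (NeZero.ne N)
  letI := Fintype.ofFinite (SL(2, ℤ) ⧸ Gamma0 N)
  have hFil := Fermat.Agent.S28.isPoleFiltration_poleFil hN (⊤ : Subring ℂ)
  have hqa : ∀ q : SL(2, ℤ) ⧸ Gamma0 N, cosetTranslate (Gamma0 N) a ha q ∈ poleFil N ⊤ Ma := by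
    intro q
    induction q using QuotientGroup.induction_on with
    | H g => exact haP g⁻¹
  have hqf : ∀ q : SL(2, ℤ) ⧸ Gamma0 N, cosetTranslate (Gamma0 N) f hf q ∈ poleFil N ⊤ Mf := by
    intro q
    induction q using QuotientGroup.induction_on with
    | H g => exact hfP g⁻¹
  have h1 : h32_psum a f ha hf k = ∑ q : SL(2, ℤ) ⧸ Gamma0 N,
      cosetTranslate (Gamma0 N) a ha q * cosetTranslate (Gamma0 N) f hf q ^ k := by
    funext τ
    simp [h32_psum, Finset.sum_apply]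
  rw [h1]
  exact hFil.sum_mem _ _ fun q _ => hFil.mul_mem (hqa q) (h32_pow_mem hFil (hqf q) k)

/-- the traces are polynomials in `j`. -/
theorem h32_psum_poly {Ma Mf : ℕ}
    (haP : ∀ g : SL(2, ℤ), (fun τ => a (g • τ)) ∈ poleFil N ⊤ Ma)
    (hfP : ∀ g : SL(2, ℤ), (fun τ => f (g • τ)) ∈ poleFil N ⊤ Mf) (k : ℕ) :
    ∃ Q : Polynomial ℂ, ∀ τ, h32_psum a f ha hf k τ = Q.eval (jAn τ) :=
  h32_levelOne N (h32_psum_mem a f ha hf haP hfP k) (h32_psum_smul a f ha hf k)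

end

/-! ## Products of nonzero holomorphic functions -/

theorem h32_mul_ne_zero {H₁ H₂ : ℍ → ℂ} (h₁ : MDiff H₁) (h₂ : MDiff H₂) (n₁ : H₁ ≠ 0)
    (n₂ : H₂ ≠ 0) : H₁ * H₂ ≠ 0 := by
  intro h
  have h3 := Fermat.Agent.S24.tayAt_mul h₁ h₂ UpperHalfPlane.I
  have h0 : Fermat.Agent.S24.tayAt UpperHalfPlane.I (0 : ℍ → ℂ) = 0 :=
    (Fermat.Agent.S24.tayAt_eq_zero_iff
      (show MDiff (0 : ℍ → ℂ) from mdifferentiable_const (c := (0 : ℂ))) _).mpr rfl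
  rw [h, h0] at h3
  rcases mul_eq_zero.mp h3.symm with h4 | h4
  · exact n₁ ((Fermat.Agent.S24.tayAt_eq_zero_iff h₁ _).mp h4)
  · exact n₂ ((Fermat.Agent.S24.tayAt_eq_zero_iff h₂ _).mp h4)

theorem h32_prod_ne_zero {ι : Type*} (s : Finset ι) (F : ι → ℍ → ℂ)
    (hF : ∀ i ∈ s, MDiff (F i)) (hne : ∀ i ∈ s, F i ≠ 0) :
    MDiff (∏ i ∈ s, F i) ∧ (∏ i ∈ s, F i) ≠ 0 := by
  classical
  induction s using Finset.induction_on with
  | empty =>
    refine ⟨?_, ?_⟩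
    · rw [Finset.prod_empty]
      exact (mdifferentiable_const (c := (1 : ℂ)) : MDiff fun _ : ℍ => (1 : ℂ))
    · simp only [Finset.prod_empty]
      intro h
      have := congrFun h UpperHalfPlane.I
      simp at this
  | insert i s hi ih =>
    obtain ⟨ih1, ih2⟩ := ih (fun j hj => hF j (Finset.mem_insert_of_mem hj))
      (fun j hj => hne j (Finset.mem_insert_of_mem hj))
    rw [Finset.prod_insert hi]
    exact ⟨(hF i (Finset.mem_insert_self i s)).mul ih1,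
      h32_mul_ne_zero (hF i (Finset.mem_insert_self i s)) ih1
        (hne i (Finset.mem_insert_self i s)) ih2⟩

end Fermat.Agent.Jac
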