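import Fermat.Agent.Jac.Conv.Alg
import Fermat.Agent.Jac.Conv.Sym

/-!
# IN-JAC, task CONV

`h32_conv : ConvStatement`: a holomorphic `Γ₀(N)`-invariant function `A` on `ℍ` which is meromorphic
at all cusps has a `q`-expansion lying in the function field `F_ℂ = ℂ(j(q^d) : d ∣ N)`.

Proof.  Let `B_q` (resp. `A_q`) be the translates of `j(Nτ)` (resp. `A`) indexed by the cosets
`q ∈ SL₂(ℤ)/Γ₀(N)`.  The traces `V_m = ∑_q B_q^m` and `T_k = ∑_q A_q B_q^k` are polynomials in `j`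
(`Conv/Sym.lean`).  Cramer's rule for the interpolation problem (`Conv/Alg.lean`) gives
`det(V_{k+l}) · A = ∑_k (adj(V) T)_k · j(Nτ)^k`, and `det(V_{k+l})` is the square of the Vandermonde
determinant of the `B_q`, which is not identically zero because the `B_q` are pairwise distinct
(S24 `mem_Gamma0_of_jAt_smul_eq`).  Passing to `q`-expansions, `A = (∑ ...)/det ∈ ℂ(j, j_N)`.
-/

set_option autoImplicit false
set_option linter.style.haveILetI false

open ModularCurve AlgebraicCurve UpperHalfPlane CongruenceSubgroup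
open scoped MatrixGroups Manifold

noncomputable section

namespace Fermat.Agent.Jac

open Fermat.Agent.S28 (HasTExp Holo poleFil jAn jAt cosetTranslate IsPoleFiltration cEmb jSub)

section

variable {N : ℕ}

theorem h32_cosetTranslate_const (c : ℂ)
    (h : ∀ γ ∈ Gamma0 N, ∀ τ : ℍ, (fun _ : ℍ => c) (γ • τ) = (fun _ : ℍ => c) τ)
    (q : SL(2, ℤ) ⧸ Gamma0 N) (τ : ℍ) :
    cosetTranslate (Gamma0 N) (fun _ => c) h q τ = c := by
  induction q using QuotientGroup.induction_on with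
  | H g => rfl

theorem h32_holo_cosetTranslate {f : ℍ → ℂ} (hf : Holo f)
    (hinv : ∀ γ ∈ Gamma0 N, ∀ τ : ℍ, f (γ • τ) = f τ) (q : SL(2, ℤ) ⧸ Gamma0 N) :
    MDiff (cosetTranslate (Gamma0 N) f hinv q) := by
  induction q using QuotientGroup.induction_on with
  | H g => exact Fermat.Agent.S28.h93_holo_comp_smul hf g⁻¹

theorem h32_cosetTranslate_jAt_injective [NeZero N]
    (hinv : ∀ γ ∈ Gamma0 N, ∀ τ : ℍ, jAt N (γ • τ) = jAt N τ) :
    Function.Injective (cosetTranslate (Gamma0 N) (jAt N) hinv) := by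
  intro q q' h
  induction q using QuotientGroup.induction_on with
  | H g =>
    induction q' using QuotientGroup.induction_on with
    | H g' =>
      rw [QuotientGroup.eq]
      refine Fermat.Agent.S24.mem_Gamma0_of_jAt_smul_eq N _ fun τ => ?_
      have h1 := congrFun h (g' • τ)
      simp only [Fermat.Agent.S28.cosetTranslate_mk] at h1
      rw [mul_smul, h1, inv_smul_smul]

theorem h32_T_mem : ModularGroup.T ∈ Gamma0 N := by
  rw [CongruenceSubgroup.Gamma0_mem]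
  simp [ModularGroup.T]

theorem h32_eval₂_mem [NeZero N] (P : Polynomial ℂ) {x : LaurentSeries ℂ}
    (hx : x ∈ laurentBaseChange ℂ (modularFunctionFieldFull N)) :
    P.eval₂ (HahnSeries.C : ℂ →+* LaurentSeries ℂ) x ∈
      laurentBaseChange ℂ (modularFunctionFieldFull N) := by
  rw [Polynomial.eval₂_eq_sum_range]
  refine sum_mem fun i _ => mul_mem ?_ (pow_mem hx i)
  have h1 : (HahnSeries.C : ℂ →+* LaurentSeries ℂ) (P.coeff i) =
      algebraMap ℂ (LaurentSeries ℂ) (P.coeff i) := by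
    have h2 : algebraMap ℂ (PowerSeries ℂ) (P.coeff i) = PowerSeries.C (P.coeff i) := by simp
    rw [HahnSeries.algebraMap_apply', h2, HahnSeries.ofPowerSeries_C]
  rw [h1]
  exact (laurentBaseChange ℂ (modularFunctionFieldFull N)).algebraMap_mem (P.coeff i)

end

/-- the interpolation identity with polynomial coefficients. -/
theorem h32_core {n : ℕ} (B Aq : Fin n → ℍ → ℂ) (i₀ : Fin n) (Rm Qk : ℕ → Polynomial ℂ)
    (hVsum : ∀ (m : ℕ) (τ : ℍ), (Rm m).eval (jAn τ) = ∑ i, B i τ ^ m)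
    (hTsum : ∀ (k : ℕ) (τ : ℍ), (Qk k).eval (jAn τ) = ∑ i, Aq i τ * B i τ ^ k) :
    ∃ (Pdet : Polynomial ℂ) (Up : Fin n → Polynomial ℂ),
      (∀ τ, Pdet.eval (jAn τ) = (Matrix.vandermonde (fun i => B i τ)).det ^ 2) ∧
      ∀ τ, Pdet.eval (jAn τ) * Aq i₀ τ = ∑ k : Fin n, (Up k).eval (jAn τ) * B i₀ τ ^ (k : ℕ) := by
  classical
  let Gp : Matrix (Fin n) (Fin n) (Polynomial ℂ) := h32_hankel Rm
  have hG : ∀ τ, (Polynomial.evalRingHom (jAn τ)).mapMatrix Gp =
      h32_hankel (n := n) (fun m => ∑ i, B i τ ^ m) := by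
    intro τ
    ext k l
    simp only [RingHom.mapMatrix_apply, Matrix.map_apply, Gp, h32_hankel_apply,
      Polynomial.coe_evalRingHom, hVsum]
  have hdet : ∀ τ, Gp.det.eval (jAn τ) = (h32_hankel (n := n) (fun m => ∑ i, B i τ ^ m)).det := by
    intro τ
    rw [← hG τ, ← RingHom.map_det]
    rfl
  have hUp : ∀ τ k, ((Gp.adjugate.mulVec (fun k => Qk k)) k).eval (jAn τ) =
      ((h32_hankel (n := n) (fun m => ∑ i, B i τ ^ m)).adjugate.mulVec
        (fun k => ∑ i, Aq i τ * B i τ ^ (k : ℕ))) k := by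
    intro τ k
    rw [← hG τ, ← RingHom.map_adjugate]
    simp only [Matrix.mulVec, dotProduct, Polynomial.eval_finsetSum, Polynomial.eval_mul,
      RingHom.mapMatrix_apply, Matrix.map_apply, Polynomial.coe_evalRingHom, hTsum]
  refine ⟨Gp.det, Gp.adjugate.mulVec (fun k => Qk k), fun τ => ?_, fun τ => ?_⟩
  · rw [hdet, h32_det_hankel]
  · have h := h32_interpolation (fun i => B i τ) (fun i => Aq i τ) i₀
    rw [hdet, h]
    refine Finset.sum_congr rfl fun k _ => ?_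
    rw [hUp]

/-- **CONV** (second proof, by traces and Cramer's rule; the official `conv` is in
`Jac/ConvFinal.lean`). -/
theorem h32_conv : ConvStatement := by
  intro N _ A hA hAinv hcusp
  classical
  have hN : 0 < N := Nat.pos_of_ne_zero (NeZero.ne N)
  have hAinv' : ∀ γ ∈ Gamma0 N, ∀ τ : ℍ, A (γ • τ) = A τ := fun γ hγ τ => hAinv ⟨γ, hγ⟩ τ
  have hfinv : ∀ γ ∈ Gamma0 N, ∀ τ : ℍ, jAt N (γ • τ) = jAt N τ := fun γ hγ τ =>
    Fermat.Agent.S28.jAt_smul_of_mem_Gamma0 N N dvd_rfl hN γ hγ τ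
  have hone : ∀ γ ∈ Gamma0 N, ∀ τ : ℍ,
      (fun _ : ℍ => (1 : ℂ)) (γ • τ) = (fun _ : ℍ => (1 : ℂ)) τ := fun _ _ _ => rfl
  -- pole bounds
  obtain ⟨Ma, haP⟩ := h32_exists_bound N A hA hAinv' hcusp
  have hfP : ∀ g : SL(2, ℤ), (fun τ => jAt N (g • τ)) ∈ poleFil N ⊤ N := fun g => by
    obtain ⟨s, hs, -, hb⟩ := (Fermat.Agent.S28.h44_cuspStatement N hN).1 N dvd_rfl g
    exact ⟨Fermat.Agent.S28.h93_holo_comp_smul (Fermat.Agent.S28.holo_jAt N) g, s, hs,
      fun _ => Subring.mem_top _, hb⟩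
  have h1P : ∀ g : SL(2, ℤ), (fun τ => (fun _ : ℍ => (1 : ℂ)) (g • τ)) ∈ poleFil N ⊤ 0 :=
    fun g => (Fermat.Agent.S28.isPoleFiltration_poleFil hN (⊤ : Subring ℂ)).one_mem
  -- the traces as polynomials in `j`
  have hV : ∀ m : ℕ, ∃ Q : Polynomial ℂ, ∀ τ,
      h32_psum (fun _ => 1) (jAt N) hone hfinv m τ = Q.eval (jAn τ) :=
    fun m => h32_psum_poly _ _ hone hfinv h1P hfP m
  have hT : ∀ k : ℕ, ∃ Q : Polynomial ℂ, ∀ τ,
      h32_psum A (jAt N) hAinv' hfinv k τ = Q.eval (jAn τ) :=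
    fun k => h32_psum_poly _ _ hAinv' hfinv haP hfP k
  choose Rm hRm using hV
  choose Qk hQk using hT
  -- index bookkeeping
  letI := Fintype.ofFinite (SL(2, ℤ) ⧸ Gamma0 N)
  let e : Fin (Fintype.card (SL(2, ℤ) ⧸ Gamma0 N)) ≃ SL(2, ℤ) ⧸ Gamma0 N :=
    (Fintype.equivFin _).symm
  let i₀ : Fin (Fintype.card (SL(2, ℤ) ⧸ Gamma0 N)) :=
    e.symm ((1 : SL(2, ℤ)) : SL(2, ℤ) ⧸ Gamma0 N)
  let B : Fin (Fintype.card (SL(2, ℤ) ⧸ Gamma0 N)) → ℍ → ℂ :=
    fun i => cosetTranslate (Gamma0 N) (jAt N) hfinv (e i)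
  let Aq : Fin (Fintype.card (SL(2, ℤ) ⧸ Gamma0 N)) → ℍ → ℂ :=
    fun i => cosetTranslate (Gamma0 N) A hAinv' (e i)
  have hB0 : ∀ τ, B i₀ τ = jAt N τ := fun τ => by
    simp only [B, i₀, Equiv.apply_symm_apply]
    exact Fermat.Agent.S28.cosetTranslate_one (Gamma0 N) (jAt N) hfinv τ
  have hA0 : ∀ τ, Aq i₀ τ = A τ := fun τ => by
    simp only [Aq, i₀, Equiv.apply_symm_apply]
    exact Fermat.Agent.S28.cosetTranslate_one (Gamma0 N) A hAinv' τ
  have hVsum : ∀ (m : ℕ) (τ : ℍ), (Rm m).eval (jAn τ) = ∑ i, B i τ ^ m := by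
    intro m τ
    rw [← hRm, h32_psum, ← Equiv.sum_comp e]
    refine Finset.sum_congr rfl fun i _ => ?_
    rw [h32_cosetTranslate_const, one_mul]
  have hTsum : ∀ (k : ℕ) (τ : ℍ), (Qk k).eval (jAn τ) = ∑ i, Aq i τ * B i τ ^ k := by
    intro k τ
    rw [← hQk, h32_psum, ← Equiv.sum_comp e]
  -- the polynomial data
  obtain ⟨Pdet, Up, hdet, hid'⟩ := h32_core B Aq i₀ Rm Qk hVsum hTsum
  -- the identity of functions
  have hid : ∀ τ, Pdet.eval (jAn τ) * A τ =
      ∑ k : Fin (Fintype.card (SL(2, ℤ) ⧸ Gamma0 N)),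
        (Up k).eval (jAn τ) * jAt N τ ^ (k : ℕ) := by
    intro τ
    have h := hid' τ
    rw [hA0] at h
    rw [h]
    refine Finset.sum_congr rfl fun k _ => ?_
    rw [hB0]
  -- expansions
  have hj : HasTExp 1 jAn (cEmb jq) := (Fermat.Agent.S28.h44_bridgeStatement N hN).1
  have hjN : HasTExp 1 (jAt N) (cEmb (jSub N)) :=
    (Fermat.Agent.S28.h44_bridgeStatement N hN).2.1 N hN
  obtain ⟨sN, hsN⟩ := hcusp 1
  have hper : ∀ τ : ℍ, A ((1 : ℝ) +ᵥ τ) = A τ := fun τ => by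
    rw [← UpperHalfPlane.modular_T_smul]
    exact hAinv' _ h32_T_mem τ
  have hsN' : HasTExp N A sN := hsN.congr fun τ => by simp
  obtain ⟨sA, hsA, -⟩ := Fermat.Agent.S28.HasTExp.to_one hsN' hper
  refine ⟨sA, hsA, ?_⟩
  have hΔ : HasTExp 1 (fun τ => Pdet.eval (jAn τ))
      (Pdet.eval₂ (HahnSeries.C : ℂ →+* LaurentSeries ℂ) (cEmb jq)) :=
    Fermat.Agent.S28.h52_hasTExp_eval one_pos Pdet hj
  have hU : HasTExp 1
      (fun τ => ∑ k : Fin (Fintype.card (SL(2, ℤ) ⧸ Gamma0 N)),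
        (Up k).eval (jAn τ) * jAt N τ ^ (k : ℕ))
      (∑ k : Fin (Fintype.card (SL(2, ℤ) ⧸ Gamma0 N)),
        (Up k).eval₂ (HahnSeries.C : ℂ →+* LaurentSeries ℂ) (cEmb jq) *
          cEmb (jSub N) ^ (k : ℕ)) := by
    have h := Fermat.Agent.S28.HasTExp.finset_sum (N := 1)
      (Finset.univ : Finset (Fin (Fintype.card (SL(2, ℤ) ⧸ Gamma0 N))))
      (g := fun k => (fun τ => (Up k).eval (jAn τ)) * (jAt N) ^ (k : ℕ))
      (s := fun k => (Up k).eval₂ (HahnSeries.C : ℂ →+* LaurentSeries ℂ) (cEmb jq) *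
          cEmb (jSub N) ^ (k : ℕ))
      (fun k _ => (Fermat.Agent.S28.h52_hasTExp_eval one_pos (Up k) hj).mul one_pos
        (hjN.pow one_pos k))
    refine h.congr fun τ => ?_
    rw [Finset.sum_apply]
    rfl
  have hΔA := hΔ.mul one_pos hsA
  have heq : Pdet.eval₂ (HahnSeries.C : ℂ →+* LaurentSeries ℂ) (cEmb jq) * sA =
      ∑ k : Fin (Fintype.card (SL(2, ℤ) ⧸ Gamma0 N)),
        (Up k).eval₂ (HahnSeries.C : ℂ →+* LaurentSeries ℂ) (cEmb jq) *
          cEmb (jSub N) ^ (k : ℕ) :=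
    Fermat.Agent.S28.HasTExp.unique one_pos hΔA (hU.congr fun τ => (hid τ).symm)
  -- the determinant is not zero
  have hΔne : Pdet.eval₂ (HahnSeries.C : ℂ →+* LaurentSeries ℂ) (cEmb jq) ≠ 0 := by
    intro h0
    rw [h0] at hΔ
    have hfun := Fermat.Agent.S24.h23_fun_eq_zero hΔ
    -- the Vandermonde determinant as a function
    have hBholo : ∀ i, MDiff (B i) := fun i =>
      h32_holo_cosetTranslate (Fermat.Agent.S28.holo_jAt N) hfinv (e i)
    have hBne : ∀ i j, i ≠ j → B j - B i ≠ 0 := by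
      intro i j hij h
      have h1 : B j = B i := sub_eq_zero.mp h
      exact hij (e.injective (h32_cosetTranslate_jAt_injective hfinv h1)).symm
    have hinner : ∀ i : Fin (Fintype.card (SL(2, ℤ) ⧸ Gamma0 N)),
        MDiff (∏ j ∈ Finset.Ioi i, (B j - B i)) ∧ (∏ j ∈ Finset.Ioi i, (B j - B i)) ≠ 0 :=
      fun i => h32_prod_ne_zero _ _ (fun j _ => (hBholo j).sub (hBholo i))
        (fun j hj => hBne i j (ne_of_lt (Finset.mem_Ioi.mp hj)))
    have houter := h32_prod_ne_zero (Finset.univ : Finset (Fin (Fintype.card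
      (SL(2, ℤ) ⧸ Gamma0 N)))) (fun i => ∏ j ∈ Finset.Ioi i, (B j - B i))
      (fun i _ => (hinner i).1) (fun i _ => (hinner i).2)
    apply houter.2
    funext τ
    have h1 := congrFun hfun τ
    simp only [Pi.zero_apply] at h1
    rw [hdet, Matrix.det_vandermonde] at h1
    have h2 := pow_eq_zero_iff (two_ne_zero) |>.mp h1
    simp only [Finset.prod_apply, Pi.sub_apply, Pi.zero_apply]
    exact h2
  -- membership
  have hmemj : cEmb jq ∈ laurentBaseChange ℂ (modularFunctionFieldFull N) :=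
    coeffEmb_mem_laurentBaseChange ℂ (modularFunctionField_le_full N (jq_mem N))
  have hmemJ : cEmb (jSub N) ∈ laurentBaseChange ℂ (modularFunctionFieldFull N) := by
    have h1 : jSub N = qExpand ℚ N jq := by
      unfold Fermat.Agent.S28.jSub
      rw [dif_neg (NeZero.ne N)]
    rw [h1]
    exact coeffEmb_mem_laurentBaseChange ℂ (jqd_mem_full N dvd_rfl)
  have hsA : sA = (∑ k : Fin (Fintype.card (SL(2, ℤ) ⧸ Gamma0 N)),
        (Up k).eval₂ (HahnSeries.C : ℂ →+* LaurentSeries ℂ) (cEmb jq) *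
          cEmb (jSub N) ^ (k : ℕ)) /
      Pdet.eval₂ (HahnSeries.C : ℂ →+* LaurentSeries ℂ) (cEmb jq) := by
    rw [eq_div_iff hΔne, mul_comm]
    exact heq
  rw [hsA]
  refine div_mem (sum_mem fun k _ => mul_mem (h32_eval₂_mem _ hmemj) (pow_mem hmemJ _))
    (h32_eval₂_mem _ hmemj)

end Fermat.Agent.Jac
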